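import Fermat.Agent.S29.Assemble.Final
import Fermat.Agent.S29.CycCheb.Main
import Fermat.Agent.S29.NonVanish.MainOf

/-!
# S29 / S42 from block (Desc) alone

Junction of the three constants of `Assemble/Final`:
weak cyclic Chebotarev (`CycCheb/Main.cycChebStatement`), integrality (`Assemble/Final`), and
`NonVanish/MainOf.nonVanishTarget_of_desc`.

* `s29_of_desc : (∀ N p, BlockDesc N p) → S29Statement`;
* `s42_of_desc : (∀ N p, BlockDesc N p) → ∀ P M, 0 < M → P.EigenformResidualAttachmentAt M`.
-/

set_option autoImplicit false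

namespace Fermat.Agent.S29.Assemble

open Fermat.Agent.S29.NonVanish

/-- **S29 from the descent block.** -/
theorem s29_of_desc
    (hDesc : ∀ (N : ℕ) [NeZero N] (p : ℕ), p.Prime → Skeleton.BlockDesc N p) : S29Statement :=
  s29_of_two Fermat.Agent.S29.CycCheb.Main.cycChebStatement
    (MainOf.nonVanishTarget_of_desc hDesc)

/-- **S42 from the descent block.** -/
theorem s42_of_desc
    (hDesc : ∀ (N : ℕ) [NeZero N] (p : ℕ), p.Prime → Skeleton.BlockDesc N p) (P : FreyPackage) :
    ∀ M : ℕ, 0 < M → P.EigenformResidualAttachmentAt M :=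
  s42_of_two Fermat.Agent.S29.CycCheb.Main.cycChebStatement
    (MainOf.nonVanishTarget_of_desc hDesc) P

end Fermat.Agent.S29.Assemble
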