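import Mathlib
import Fermat.Prelude.Def_GaloisRep_Residual
import Fermat.Agent.S29.Interface
import Fermat.Agent.S29.Core.ESOp
import Fermat.Agent.S29.GaloisHecke
import Fermat.Agent.S29.FiniteLevel
import Fermat.Agent.S29.Cyclo.ModPCharUnits
import Fermat.Agent.S29.PowerTransfer
import Fermat.Agent.S29.RepOfModule

/-!
# S29 (R-core C9): the assembly, from `NonVanish` to a residual Galois representation

`k0` an algebraically closed field of characteristic `p`.  From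

* `Interface.NonVanish N p k0 a` (a nonzero simultaneous eigenvector `v` of the `T_ℓ`, `ℓ ∤ N p`,
  in `k0 ⊗ J₀(N)(ℚ̄)[p]`, eigenvalues `a ℓ`), and
* weak cyclic Chebotarev `CycChebStatement` (verbatim the statement of
  `CycCheb.exists_frobenius_generator`),

we construct `r : ResidualGaloisRep k0` with
`charpoly (r.ρ Frob_ℓ) = X² - a_ℓ X + ℓ` for every Frobenius lift at every `ℓ ∤ N p`, unramified at
every `ℓ ∤ N p` (`exists_rep_of_nonVanish`).

Ingredients (all on main): `Core/ESOp` (Eichler–Shimura relation and unramifiedness on `J[p]`,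
no commutativity hypothesis), `GaloisHecke` (Galois commutes with `T_ℓ`), `FiniteLevel` (orbit span,
finite normal level), `Cyclo/ModPCharUnits` (mod `p` cyclotomic character), `PowerTransfer`
(from Frobenius elements to all elements), `RepOfModule.exists_rep_two`.
-/

set_option autoImplicit false

noncomputable section

open AlgebraicCurve ModularCurve Polynomial
open scoped TensorProduct

namespace Fermat.Agent.S29.Assemble

open Fermat.Agent.S29.Interface

local notation "Kb" => AlgebraicClosure ℚ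
local notation "GQ" => (AlgebraicClosure ℚ ≃ₐ[ℚ] AlgebraicClosure ℚ)

/-- **weak cyclic Chebotarev**, verbatim the statement of `CycCheb.exists_frobenius_generator`. -/
def CycChebStatement : Prop :=
  ∀ (L : IntermediateField ℚ Kb) [FiniteDimensional ℚ L] [IsGalois ℚ L] (g : GQ)
    (bad : Finset ℕ),
    ∃ (ℓ : ℕ) (A : ValuationSubring Kb) (σ : GQ) (i j : ℕ),
      ℓ.Prime ∧ ℓ ∉ bad ∧ A.LiesOverPrime ℓ ∧ A.IsFrobeniusAt σ ℓ ∧
      (∀ x ∈ L, σ x = (g ^ i) x) ∧ (∀ x ∈ L, g x = (σ ^ j) x)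

section Big

variable (N p : ℕ) [NeZero N] (k0 : Type) [Field k0] [Algebra (ZMod p) k0]

omit [NeZero N] in
/-- the torsion condition in the form used by `Core/ESOp`. -/
theorem pow_one_nsmul_coe (x : Jp N p) : (p ^ 1) • (x : JZero N) = 0 := by
  have h := Pic0.mem_torsion.mp x.2
  rw [pow_one, ← natCast_zsmul]
  exact h

omit [NeZero N] in
/-- natural-number scalars in `k0` act on pure tensors through the second factor. -/
theorem natCast_smul_tmul (n : ℕ) (c : k0) (x : Jp N p) :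
    (n : k0) • (c ⊗ₜ[ZMod p] x : Vbig N p k0) = c ⊗ₜ[ZMod p] (n • x) := by
  rw [Nat.cast_smul_eq_nsmul k0 n]
  exact (map_nsmul (TensorProduct.mk (ZMod p) k0 (Jp N p) c) n x).symm

/-- **Galois commutes with `T_ℓ`** on `k0 ⊗ J[p]`. -/
theorem Tl_galBig (ℓ : Nat.Primes) (σ : GQ) (v : Vbig N p k0) :
    Tl N p k0 ℓ (galBig N p k0 σ v) = galBig N p k0 σ (Tl N p k0 ℓ v) := by
  induction v using TensorProduct.induction_on with
  | zero => simp only [map_zero]
  | tmul c x =>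
    rw [galBig_tmul, Tl_tmul, Tl_tmul, galBig_tmul]
    congr 1
    apply Subtype.ext
    rw [coe_heckeTors, JZero.coe_torsionGaloisRep_apply, JZero.coe_torsionGaloisRep_apply,
      coe_heckeTors]
    exact (Fermat.Agent.S29.GaloisHecke.heckeOperatorBar_smul N ℓ σ (x : JZero N)).symm
  | add x y hx hy => simp only [map_add, hx, hy]

/-- **Eichler–Shimura on `k0 ⊗ J[p]`**. -/
theorem es_big {ℓ : ℕ} (hℓ : ℓ.Prime) (hndvd : ¬ ℓ ∣ N * p)
    (A : ValuationSubring Kb) (hA : A.LiesOverPrime ℓ) (Φ : GQ) (hΦ : A.IsFrobeniusAt Φ ℓ)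
    (v : Vbig N p k0) :
    galBig N p k0 Φ (galBig N p k0 Φ v) - Tl N p k0 ⟨ℓ, hℓ⟩ (galBig N p k0 Φ v)
      + (ℓ : k0) • v = 0 := by
  induction v using TensorProduct.induction_on with
  | zero => simp only [map_zero, smul_zero, sub_self, add_zero]
  | tmul c x =>
    rw [galBig_tmul, galBig_tmul, Tl_tmul, natCast_smul_tmul, ← TensorProduct.tmul_sub,
      ← TensorProduct.tmul_add]
    have h0 : JZero.torsionGaloisRep N p Φ (JZero.torsionGaloisRep N p Φ x)
        - heckeTors N p ⟨ℓ, hℓ⟩ (JZero.torsionGaloisRep N p Φ x) + ℓ • x = 0 := by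
      apply Subtype.ext
      have h := Fermat.Agent.S29.Core.ESOp.es_eq_zero N p ℓ hℓ hndvd A hA Φ hΦ (x : JZero N) 1
        (pow_one_nsmul_coe N p x)
      rw [AddSubgroup.coe_add, AddSubgroup.coe_sub, AddSubgroup.coe_nsmul, coe_heckeTors,
        JZero.coe_torsionGaloisRep_apply, JZero.coe_torsionGaloisRep_apply]
      exact h
    rw [h0, TensorProduct.tmul_zero]
  | add x y hx hy =>
    have e : galBig N p k0 Φ (galBig N p k0 Φ (x + y))
        - Tl N p k0 ⟨ℓ, hℓ⟩ (galBig N p k0 Φ (x + y)) + (ℓ : k0) • (x + y)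
        = (galBig N p k0 Φ (galBig N p k0 Φ x) - Tl N p k0 ⟨ℓ, hℓ⟩ (galBig N p k0 Φ x)
            + (ℓ : k0) • x)
          + (galBig N p k0 Φ (galBig N p k0 Φ y) - Tl N p k0 ⟨ℓ, hℓ⟩ (galBig N p k0 Φ y)
            + (ℓ : k0) • y) := by
      simp only [map_add, smul_add]
      abel
    rw [e, hx, hy, add_zero]

/-- **Unramifiedness on `k0 ⊗ J[p]`**. -/
theorem inertia_big {ℓ : ℕ} (hℓ : ℓ.Prime) (hndvd : ¬ ℓ ∣ N * p)
    (A : ValuationSubring Kb) (hA : A.LiesOverPrime ℓ) (σ : GQ)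
    (hσ : σ ∈ A.inertiaSubgroupIn ℚ) (v : Vbig N p k0) :
    galBig N p k0 σ v = v := by
  induction v using TensorProduct.induction_on with
  | zero => simp only [map_zero]
  | tmul c x =>
    rw [galBig_tmul]
    congr 1
    apply Subtype.ext
    rw [JZero.coe_torsionGaloisRep_apply]
    exact Fermat.Agent.S29.Core.ESOp.inertia_smul_eq N p ℓ hℓ hndvd A hA σ hσ (x : JZero N) 1
      (pow_one_nsmul_coe N p x)
  | add x y hx hy => rw [map_add, hx, hy]

/-- every vector of `k0 ⊗ J[p]` has finite level. -/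
theorem hasFiniteLevelRep_big (v : Vbig N p k0) :
    Fermat.Agent.S29.FiniteLevel.HasFiniteLevelRep (galBig N p k0) v :=
  Fermat.Agent.S29.FiniteLevel.hasFiniteLevelRep_tmul (JZero.torsionGaloisRep N p)
    (galBig N p k0) (fun σ c m => galBig_tmul N p k0 σ c m)
    (Fermat.Agent.S29.FiniteLevel.hasFiniteLevel_torsion N p) v

/-- the orbit span of an eigenvector consists of eigenvectors. -/
theorem Tl_eq_smul_of_mem_orbitSpan (a : Nat.Primes → k0) {v : Vbig N p k0} (ℓ : Nat.Primes)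
    (hv : Tl N p k0 ℓ v = a ℓ • v) {w : Vbig N p k0}
    (hw : w ∈ Fermat.Agent.S29.FiniteLevel.orbitSpan (galBig N p k0) v) :
    Tl N p k0 ℓ w = a ℓ • w := by
  unfold Fermat.Agent.S29.FiniteLevel.orbitSpan at hw
  induction hw using Submodule.span_induction with
  | mem x hx =>
    obtain ⟨σ, rfl⟩ := hx
    show Tl N p k0 ℓ (galBig N p k0 σ v) = a ℓ • galBig N p k0 σ v
    rw [Tl_galBig, hv, map_smul]
  | zero => rw [map_zero, smul_zero]
  | add x y _ _ hx hy => rw [map_add, hx, hy, smul_add]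
  | smul c x _ hx => rw [map_smul, hx, smul_comm]

end Big

section Main

open Fermat.Agent.S29.FiniteLevel Fermat.Agent.S29.PowerTransfer
open Fermat.Agent.S29.Cyclo.ModPCharUnits Fermat.Agent.S29.Cyclo.ModPChar

variable {N p : ℕ} [NeZero N] (k0 : Type) [Field k0] [IsAlgClosed k0] [CharP k0 p]
  [Algebra (ZMod p) k0]

omit [NeZero N] [IsAlgClosed k0] [Algebra (ZMod p) k0] in
/-- a prime not dividing `N * p` is nonzero in a field of characteristic `p`. -/
theorem natCast_ne_zero_of_not_dvd (hp : p.Prime) {ℓ : ℕ} (hℓ : ℓ.Prime) (hndvd : ¬ ℓ ∣ N * p) :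
    (ℓ : k0) ≠ 0 := by
  intro h
  have h1 : p ∣ ℓ := (CharP.cast_eq_zero_iff k0 p ℓ).mp h
  have h2 : p = ℓ := (Nat.prime_dvd_prime_iff_eq hp hℓ).mp h1
  exact hndvd (h2 ▸ Dvd.intro_left N rfl)

/-- **(C9) the assembly**: from a nonzero simultaneous eigenvector in `k0 ⊗ J₀(N)(ℚ̄)[p]` and weak
cyclic Chebotarev to a two-dimensional residual representation with the exact characteristic
polynomials at all Frobenius lifts at `ℓ ∤ N p`, unramified outside `N p`. -/
theorem exists_rep_of_nonVanish (hp : p.Prime) (hcheb : CycChebStatement)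
    (a : Nat.Primes → k0) (hNV : NonVanish N p k0 a) :
    ∃ r : ResidualGaloisRep k0,
      (∀ (ℓ : ℕ) (hℓ : ℓ.Prime), ¬ ℓ ∣ N * p →
        ∀ A : ValuationSubring Kb, A.LiesOverPrime ℓ →
          ∀ σ : GQ, A.IsFrobeniusAt σ ℓ →
            LinearMap.charpoly (r.ρ σ) = X ^ 2 - C (a ⟨ℓ, hℓ⟩) * X + C ((ℓ : k0))) ∧
      ∀ ℓ : ℕ, ℓ.Prime → ¬ ℓ ∣ N * p → r.IsUnramifiedAt ℓ := by
  classical
  haveI : Fact p.Prime := ⟨hp⟩
  obtain ⟨v, hv0, hva⟩ := hNV
  set ρ := galBig N p k0 with hρ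
  have hfl : HasFiniteLevelRep ρ v := hasFiniteLevelRep_big N p k0 v
  set W : Submodule k0 (Vbig N p k0) := orbitSpan ρ v with hW
  have hvW : v ∈ W := mem_orbitSpan_self ρ v
  haveI : FiniteDimensional k0 W := finiteDimensional_orbitSpan hfl
  haveI : Nontrivial W := ⟨⟨⟨v, hvW⟩, 0, fun h => hv0 (congrArg Subtype.val h)⟩⟩
  have hstab : Fermat.Agent.S29.RepOfModule.IsStable ρ W := fun g x hx => orbitSpan_stable ρ v g hx
  set ρW : GQ →* Module.End k0 W := Fermat.Agent.S29.RepOfModule.restrictRep ρ W hstab with hρW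
  have hρW_coe : ∀ (g : GQ) (w : W), ((ρW g w : W) : Vbig N p k0) = ρ g (w : Vbig N p k0) :=
    fun g w => rfl
  -- eigenvector property on `W`
  have heig : ∀ (ℓ : Nat.Primes), ¬ (ℓ : ℕ) ∣ N * p → ∀ w ∈ W, Tl N p k0 ℓ w = a ℓ • w :=
    fun ℓ hℓ w hw => Tl_eq_smul_of_mem_orbitSpan N p k0 a ℓ (hva ℓ hℓ) hw
  -- the level
  obtain ⟨ζ, hζ⟩ := exists_zeta p
  haveI hL0fin : FiniteDimensional ℚ (IntermediateField.adjoin ℚ {ζ}) :=
    IntermediateField.adjoin.finiteDimensional (hζ.isIntegral hp.pos).tower_top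
  obtain ⟨L, hLfin, hL0, hLst, hLfix⟩ := exists_normal_level_ge hfl (IntermediateField.adjoin ℚ {ζ})
  haveI := hLfin
  have hζL : ζ ∈ L := hL0 (IntermediateField.mem_adjoin_simple_self ℚ ζ)
  haveI : Normal ℚ Kb := Fermat.Agent.S37.Descent.Rational.normal_Kb
  haveI : Normal ℚ L := IntermediateField.normal_iff_forall_map_eq.mpr hLst
  haveI : IsGalois ℚ L := ⟨⟩
  set χ : GQ →* k0ˣ := chiKU p k0 with hχ
  have hLρ : ∀ τ : GQ, (∀ x ∈ L, τ x = x) → ρW τ = 1 := by
    intro τ hτ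
    ext w
    exact hLfix τ hτ w w.2
  have hLχ : ∀ τ : GQ, (∀ x ∈ L, τ x = x) → χ τ = 1 :=
    fun τ hτ => chiKU_eq_one_of_mem hζ L hζL τ hτ
  -- the relation at Frobenius elements
  have hNp : N * p ≠ 0 := Nat.mul_ne_zero (NeZero.ne N) hp.ne_zero
  set bad : Finset ℕ := (N * p).divisors with hbad
  have hgood : ∀ ℓ : ℕ, ℓ ∉ bad → ¬ ℓ ∣ N * p := fun ℓ h hd =>
    h (Nat.mem_divisors.mpr ⟨hd, hNp⟩)
  have hrel : ∀ (ℓ : ℕ) (hℓ : ℓ.Prime), ¬ ℓ ∣ N * p → ∀ A : ValuationSubring Kb,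
      A.LiesOverPrime ℓ → ∀ σ : GQ, A.IsFrobeniusAt σ ℓ → RelInv ρW χ σ (a ⟨ℓ, hℓ⟩) := by
    intro ℓ hℓ hnd A hA σ hσ
    rw [relInv_iff_quadAt]
    unfold Fermat.Agent.S29.TwoDim.QuadAt
    have hχσ : ((χ σ : k0ˣ) : k0) = (ℓ : k0) :=
      chiKU_frob hℓ (natCast_ne_zero_of_not_dvd k0 hp hℓ hnd) A hA σ hσ
    rw [hχσ]
    ext w
    have h1 := es_big N p k0 hℓ hnd A hA σ hσ (w : Vbig N p k0)
    have h2 := heig ⟨ℓ, hℓ⟩ hnd (ρ σ (w : Vbig N p k0)) (hstab σ w w.2)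
    rw [h2] at h1
    simp only [LinearMap.add_apply, LinearMap.smul_apply, Module.End.one_apply,
      LinearMap.zero_apply, Submodule.coe_add, Submodule.coe_smul, Submodule.coe_zero]
    exact h1
  have hkey : ∀ (ℓ : ℕ) (A : ValuationSubring Kb) (σ : GQ), ℓ.Prime → ℓ ∉ bad →
      A.LiesOverPrime ℓ → A.IsFrobeniusAt σ ℓ → ∃ b : k0, RelInv ρW χ σ b :=
    fun ℓ A σ hℓ hb hA hσ => ⟨a ⟨ℓ, hℓ⟩, hrel ℓ hℓ (hgood ℓ hb) A hA σ hσ⟩
  obtain ⟨t, ht⟩ := exists_t_of_cycCheb (k := k0) (V := W) (K := ℚ) (F := Kb) ρW χ L hLρ hLχ bad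
    (fun g => hcheb L g bad) hkey
  obtain ⟨V', iA, iM, iF, ρ', hfr, hker, hchar⟩ :=
    Fermat.Agent.S29.RepOfModule.exists_rep_two (k := k0) (G := GQ) (V := W) ρW χ t ht
  refine ⟨{ V := V', finrank_eq := hfr, ρ := ρ',
            factorsThroughFiniteLevel := ⟨L, hLfin, fun σ hσ => hker σ (hLρ σ hσ) (hLχ σ hσ)⟩ },
    ?_, ?_⟩
  · intro ℓ hℓ hnd A hA σ hσ
    show LinearMap.charpoly (ρ' σ) = _
    rw [hchar σ]
    have hχσ : ((χ σ : k0ˣ) : k0) = (ℓ : k0) :=
      chiKU_frob hℓ (natCast_ne_zero_of_not_dvd k0 hp hℓ hnd) A hA σ hσ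
    have htσ : t σ = a ⟨ℓ, hℓ⟩ := by
      have h1 := hrel ℓ hℓ hnd A hA σ hσ
      unfold RelInv at h1
      exact Fermat.Agent.S29.RepOfModule.smul_one_injective (k := k0) (W := W)
        ((ht σ).symm.trans h1)
    rw [hχσ, htσ]
  · intro ℓ hℓ hnd A hA σ hσ
    show ρ' σ = 1
    have hℓp : ℓ ≠ p := fun h => hnd (h ▸ Dvd.intro_left N rfl)
    refine hker σ ?_ (chiKU_inertia hℓ hℓp A hA σ hσ)
    ext w
    exact inertia_big N p k0 hℓ hnd A hA σ hσ (w : Vbig N p k0)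

end Main

end Fermat.Agent.S29.Assemble

end
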