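import Mathlib
import Fermat.Prelude.Def_GaloisRep_Residual
import Fermat.Agent.S29.Assemble.Core
import Fermat.Agent.S29.Alg.ResidueAlgClosed

/-!
# S29 (R-core C9): the statement S29 from the three remaining targets

* `CycChebStatement` (weak cyclic Chebotarev; `CycCheb/Main`),
* `Interface.NonVanishTarget` (half (R3); `NonVanish/Main`),
* `IntegralityTarget` (the `q`-coefficients `a_ℓ`, `ℓ ∤ N`, of a normalised eigenform are algebraic
  integers; `Betti/PeriodHecke`),

imply the frozen statement S29 (`S29Statement`, verbatim), `s29_of_targets`.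

For `N = 0` both clauses of S29 are vacuous (every prime divides `0`) and the trivial
representation works.  For `N ≥ 1` the homomorphism `φ : ℤ̄ →+* k` factors through the algebraically
closed field `k0 = ℤ̄ ⧸ ker φ`; `Assemble/Core.exists_rep_of_nonVanish` gives the representation over
`k0`, and we base change it along `k0 →+* k`.
-/

set_option autoImplicit false

noncomputable section

open Polynomial

namespace Fermat.Agent.S29.Assemble

open Fermat.Agent.S29.Interface Fermat.Agent.S29.Alg.ResidueAlgClosed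

local notation "Kb" => AlgebraicClosure ℚ
local notation "GQ" => (AlgebraicClosure ℚ ≃ₐ[ℚ] AlgebraicClosure ℚ)
local notation "Zb" => integralClosure ℤ ℂ

/-- the frozen statement S29, verbatim. -/
def S29Statement : Prop :=
  ∀ {N : ℕ} {g : CuspForm (CongruenceSubgroup.Gamma0 N) 2} (_ : g.IsNormalizedEigenform)
    {p : ℕ} (_ : p.Prime) {k : Type} [Field k] [CharP k p]
    (φ : integralClosure ℤ ℂ →+* k),
    ∃ ρ : ResidualGaloisRep k, ρ.IsAttachedTo g φ ∧
      ∀ ℓ : ℕ, ℓ.Prime → ¬ ℓ ∣ N * p → ρ.IsUnramifiedAt ℓ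

/-- the `q`-coefficients at primes not dividing the level of a normalised eigenform of level
`N ≥ 1` are algebraic integers. -/
def IntegralityTarget : Prop :=
  ∀ (N : ℕ) [NeZero N] (g : CuspForm (CongruenceSubgroup.Gamma0 N) 2),
    g.IsNormalizedEigenform → ∀ ℓ : ℕ, ℓ.Prime → ¬ ℓ ∣ N →
      IsIntegral ℤ (ModularFormClass.qCoeff g ℓ)

/-- the trivial two-dimensional residual representation. -/
def trivialRep (k : Type) [Field k] : ResidualGaloisRep k where
  V := Fin 2 → k
  finrank_eq := by rw [Module.finrank_fin_fun]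
  ρ := 1
  factorsThroughFiniteLevel := ⟨⊥, inferInstance, fun _ _ => rfl⟩

/-- base change of the characteristic polynomial clause. -/
theorem charpoly_baseChangeAlong {k0 k : Type} [Field k0] [Field k] (ι : k0 →+* k)
    (r : ResidualGaloisRep k0) (σ : GQ) (b c : k0)
    (h : LinearMap.charpoly (r.ρ σ) = X ^ 2 - C b * X + C c) :
    LinearMap.charpoly ((r.baseChangeAlong ι).ρ σ) = X ^ 2 - C (ι b) * X + C (ι c) := by
  letI : Algebra k0 k := ι.toAlgebra
  show LinearMap.charpoly ((r.ρ σ).baseChange k) = _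
  rw [LinearMap.charpoly_baseChange, h]
  simp only [Polynomial.map_add, Polynomial.map_sub, Polynomial.map_mul, Polynomial.map_pow,
    Polynomial.map_X, Polynomial.map_C]
  rfl

/-- base change of triviality. -/
theorem baseChangeAlong_eq_one {k0 k : Type} [Field k0] [Field k] (ι : k0 →+* k)
    (r : ResidualGaloisRep k0) (σ : GQ) (h : r.ρ σ = 1) :
    (r.baseChangeAlong ι).ρ σ = 1 := by
  letI : Algebra k0 k := ι.toAlgebra
  show (r.ρ σ).baseChange k = 1
  rw [h, LinearMap.baseChange_one]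

/-- **S29 from the three targets.** -/
theorem s29_of_targets (hcheb : CycChebStatement) (hNV : NonVanishTarget)
    (hint : IntegralityTarget) : S29Statement := by
  intro N g hg p hp k _ _ φ
  rcases Nat.eq_zero_or_pos N with hN0 | hN
  · subst hN0
    refine ⟨trivialRep k, ?_, ?_⟩
    · intro ℓ _ hnd
      exact absurd (dvd_zero ℓ) hnd
    · intro ℓ _ hnd
      exact absurd (by rw [zero_mul]; exact dvd_zero ℓ) hnd
  · haveI : NeZero N := ⟨hN.ne'⟩
    obtain ⟨k0, iF, iC, iP, ψ, ι, -, hι⟩ := exists_residue_field hp φ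
    letI : Algebra (ZMod p) k0 := ZMod.algebra k0 p
    classical
    -- integral lifts of the `a_ℓ`
    have hex : ∀ ℓ : Nat.Primes, ¬ (ℓ : ℕ) ∣ N * p →
        ∃ a : Zb, (a : ℂ) = ModularFormClass.qCoeff g ℓ := by
      intro ℓ h
      have h1 : IsIntegral ℤ (ModularFormClass.qCoeff g ℓ) :=
        hint N g hg ℓ ℓ.2 (fun hd => h (Dvd.dvd.mul_right hd p))
      exact ⟨⟨_, h1⟩, rfl⟩
    let a : Nat.Primes → Zb := fun ℓ =>
      if h : ¬ (ℓ : ℕ) ∣ N * p then (hex ℓ h).choose else 0
    have ha : ∀ ℓ : Nat.Primes, ¬ (ℓ : ℕ) ∣ N * p →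
        ((a ℓ : Zb) : ℂ) = ModularFormClass.qCoeff g ℓ := by
      intro ℓ h
      simp only [a, dif_pos h]
      exact (hex ℓ h).choose_spec
    obtain ⟨r, hr1, hr2⟩ := exists_rep_of_nonVanish k0 hp hcheb (fun ℓ => ψ (a ℓ))
      (hNV N g hg p hp k0 ψ a ha)
    refine ⟨r.baseChangeAlong ι, ?_, ?_⟩
    · intro ℓ hℓ hℓN hℓk A hA σ hσ
      have hℓp : ℓ ≠ p := by
        rintro rfl
        exact hℓk (CharP.cast_eq_zero k ℓ)
      have hnd : ¬ ℓ ∣ N * p := by
        intro hd
        rcases (Nat.Prime.dvd_mul hℓ).mp hd with h | h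
        · exact hℓN h
        · exact hℓp ((Nat.prime_dvd_prime_iff_eq hℓ hp).mp h)
      refine ⟨a ⟨ℓ, hℓ⟩, ha ⟨ℓ, hℓ⟩ hnd, ?_⟩
      have h1 := charpoly_baseChangeAlong ι r σ _ _ (hr1 ℓ hℓ hnd A hA σ hσ)
      rw [h1, map_natCast]
      have h2 : ι (ψ (a ⟨ℓ, hℓ⟩)) = φ (a ⟨ℓ, hℓ⟩) := RingHom.congr_fun hι _
      rw [h2]
    · intro ℓ hℓ hnd A hA σ hσ
      exact baseChangeAlong_eq_one ι r σ (hr2 ℓ hℓ hnd A hA σ hσ)

end Fermat.Agent.S29.Assemble

end
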