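import Fermat.Agent.S29.Assemble.Main
import Fermat.Agent.S29.Betti.PeriodHecke
import Fermat.Agent.S29.CycCheb.MainOf
import Fermat.Agent.S42.OfS29

/-!
# S29 / S42 from the two remaining constants

* `s29_of_two : CycCheb.MainOf.CycChebStatement → Interface.NonVanishTarget → S29Statement`
  (integrality of the `a_ℓ` discharged by `Betti.isIntegral_qCoeff_of_isNormalizedEigenform`);
* `s42_of_two : … → ∀ P M, 0 < M → P.EigenformResidualAttachmentAt M`.
-/

set_option autoImplicit false

namespace Fermat.Agent.S29.Assemble

/-- integrality of the `q`-coefficients at the primes not dividing the level. -/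
theorem integralityTarget : IntegralityTarget :=
  fun _ _ _ hg _ hℓ hℓN =>
    Fermat.Agent.S29.Betti.isIntegral_qCoeff_of_isNormalizedEigenform hg hℓ hℓN

/-- **S29 from weak cyclic Chebotarev and the nonvanishing target.** -/
theorem s29_of_two (h1 : Fermat.Agent.S29.CycCheb.MainOf.CycChebStatement)
    (h2 : Fermat.Agent.S29.Interface.NonVanishTarget) : S29Statement :=
  s29_of_targets h1 h2 integralityTarget

/-- **S42 from weak cyclic Chebotarev and the nonvanishing target.** -/
theorem s42_of_two (h1 : Fermat.Agent.S29.CycCheb.MainOf.CycChebStatement)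
    (h2 : Fermat.Agent.S29.Interface.NonVanishTarget) (P : FreyPackage) :
    ∀ M : ℕ, 0 < M → P.EigenformResidualAttachmentAt M :=
  Fermat.Agent.S42.OfS29.s42_of_s29 (s29_of_two h1 h2) P

end Fermat.Agent.S29.Assemble
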